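import Fermat.Agent.LT.T6.H288.HypSpec

/-!
# Row LT, tower T6, leaf T6.12d `IwasawaC` (helper546), OFF-MAIN

`GL₂(k) = B(k) GL₂(𝒪)` for a field with a valuation in `ℤᵐ⁰`: `g = p * κ`, `p` upper triangular,
`κ ∈ U(0)`.  Mathlib + `T6/Spec.lean` (helper22) + `T6/H288/HypSpec.lean` (helper288) only.
-/

set_option autoImplicit false

open scoped Matrix

noncomputable section

namespace Fermat.Agent.LT.T6.H288.H546

open Fermat.Agent.LT.T6 Fermat.Agent.LT.T6.H288

variable {k : Type} [Field k] [Valued k Γ₀]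

/-- An element of `GL₂(k)` with integral entries and integral inverse lies in `U(0)`. -/
theorem inU_zero_of_integral_h546 (κ : GL (Fin 2) k)
    (h1 : ∀ i j : Fin 2, Valued.v ((κ : Matrix (Fin 2) (Fin 2) k) i j) ≤ 1)
    (h2 : ∀ i j : Fin 2,
      Valued.v (((κ⁻¹ : GL (Fin 2) k) : Matrix (Fin 2) (Fin 2) k) i j) ≤ 1) :
    InU 0 κ := by
  have hone : ∀ i j : Fin 2, Valued.v ((1 : Matrix (Fin 2) (Fin 2) k) i j) ≤ 1 := by
    intro i j
    rw [Matrix.one_apply]
    split_ifs <;> simp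
  intro i j
  have he : WithZero.exp (-((0 : ℕ) : ℤ)) = (1 : Γ₀) := by simp
  rw [he]
  exact ⟨Valuation.map_sub_le _ (h1 i j) (hone i j), Valuation.map_sub_le _ (h2 i j) (hone i j)⟩

/-- The lower unipotent matrix `[[1, 0], [x, 1]]` as an element of `GL₂(k)`. -/
def lowerUnip_h546 (x : k) : GL (Fin 2) k :=
  ⟨!![1, 0; x, 1], !![1, 0; -x, 1],
    by ext i j; fin_cases i <;> fin_cases j <;> simp [Matrix.mul_apply, Fin.sum_univ_two],
    by ext i j; fin_cases i <;> fin_cases j <;> simp [Matrix.mul_apply, Fin.sum_univ_two]⟩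

/-- The matrix `[[0, 1], [1, x]]` as an element of `GL₂(k)`. -/
def weylUnip_h546 (x : k) : GL (Fin 2) k :=
  ⟨!![0, 1; 1, x], !![-x, 1; 1, 0],
    by ext i j; fin_cases i <;> fin_cases j <;> simp [Matrix.mul_apply, Fin.sum_univ_two],
    by ext i j; fin_cases i <;> fin_cases j <;> simp [Matrix.mul_apply, Fin.sum_univ_two]⟩

theorem lowerUnip_inU_h546 (x : k) (hx : Valued.v x ≤ 1) : InU 0 (lowerUnip_h546 x) := by
  apply inU_zero_of_integral_h546
  · intro i j
    fin_cases i <;> fin_cases j <;> simp [lowerUnip_h546, hx]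
  · intro i j
    have : ((lowerUnip_h546 x)⁻¹ : GL (Fin 2) k).val = !![1, 0; -x, 1] := rfl
    rw [this]
    fin_cases i <;> fin_cases j <;> simp [hx]

theorem weylUnip_inU_h546 (x : k) (hx : Valued.v x ≤ 1) : InU 0 (weylUnip_h546 x) := by
  apply inU_zero_of_integral_h546
  · intro i j
    fin_cases i <;> fin_cases j <;> simp [weylUnip_h546, hx]
  · intro i j
    have : ((weylUnip_h546 x)⁻¹ : GL (Fin 2) k).val = !![-x, 1; 1, 0] := rfl
    rw [this]
    fin_cases i <;> fin_cases j <;> simp [hx]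

/-- **T6.12d, the Iwasawa decomposition** for any field with a valuation in `ℤᵐ⁰`
(no hypothesis on the field is used). -/
theorem iwasawa_valued_h546 (g : GL (Fin 2) k) :
    ∃ (p κ : GL (Fin 2) k) (a b u : k),
      (p : Matrix (Fin 2) (Fin 2) k) = !![a, u; 0, b] ∧ InU 0 κ ∧ g = p * κ := by
  obtain ⟨a, ha⟩ : ∃ a, a = (g : Matrix (Fin 2) (Fin 2) k) 0 0 := ⟨_, rfl⟩
  obtain ⟨b, hb⟩ : ∃ b, b = (g : Matrix (Fin 2) (Fin 2) k) 0 1 := ⟨_, rfl⟩
  obtain ⟨c, hc⟩ : ∃ c, c = (g : Matrix (Fin 2) (Fin 2) k) 1 0 := ⟨_, rfl⟩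
  obtain ⟨d, hd⟩ : ∃ d, d = (g : Matrix (Fin 2) (Fin 2) k) 1 1 := ⟨_, rfl⟩
  have hg : (g : Matrix (Fin 2) (Fin 2) k) = !![a, b; c, d] := by
    rw [ha, hb, hc, hd]; exact Matrix.eta_fin_two _
  have hdet : a * d - b * c ≠ 0 := by
    have h := Matrix.GeneralLinearGroup.det_ne_zero g
    rw [hg, Matrix.det_fin_two_of] at h
    exact h
  by_cases hcd : Valued.v c ≤ Valued.v d
  · -- `d ≠ 0`, `κ = [[1, 0], [c / d, 1]]`
    have hd0 : d ≠ 0 := by
      rintro rfl
      have hc0 : c = 0 := by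
        have : Valued.v c ≤ 0 := by simpa using hcd
        simpa using this
      apply hdet
      rw [hc0]; ring
    have hx : Valued.v (c / d) ≤ 1 := by
      rw [map_div₀]
      have hvd : Valued.v d ≠ 0 := by simpa using hd0
      exact (div_le_one₀ (zero_lt_iff.mpr hvd)).mpr hcd
    refine ⟨g * (lowerUnip_h546 (c / d))⁻¹, lowerUnip_h546 (c / d), a - b * (c / d), d, b,
      ?_, lowerUnip_inU_h546 _ hx, by simp⟩
    have : ((lowerUnip_h546 (c / d))⁻¹ : GL (Fin 2) k).val = !![1, 0; -(c / d), 1] := rfl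
    rw [Units.val_mul, this, hg]
    ext i j
    fin_cases i <;> fin_cases j <;> simp [Matrix.mul_apply, Fin.sum_univ_two]
    · ring
    · field_simp
      ring
  · -- `c ≠ 0`, `κ = [[0, 1], [1, d / c]]`
    have hcd' : Valued.v d < Valued.v c := not_le.mp hcd
    have hc0 : c ≠ 0 := by
      rintro rfl
      simp at hcd'
    have hx : Valued.v (d / c) ≤ 1 := by
      rw [map_div₀]
      have hvc : Valued.v c ≠ 0 := by simpa using hc0
      exact (div_le_one₀ (zero_lt_iff.mpr hvc)).mpr hcd'.le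
    refine ⟨g * (weylUnip_h546 (d / c))⁻¹, weylUnip_h546 (d / c), b - a * (d / c), c, a,
      ?_, weylUnip_inU_h546 _ hx, by simp⟩
    have : ((weylUnip_h546 (d / c))⁻¹ : GL (Fin 2) k).val = !![-(d / c), 1; 1, 0] := rfl
    rw [Units.val_mul, this, hg]
    ext i j
    fin_cases i <;> fin_cases j <;> simp [Matrix.mul_apply, Fin.sum_univ_two]
    · ring
    · field_simp
      ring

/-- **T6.12d `IwasawaC`.** -/
theorem iwasawaC_h546 : IwasawaC := by
  intro k _ _ q _ g
  exact iwasawa_valued_h546 g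

end Fermat.Agent.LT.T6.H288.H546

end
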